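/-
Row 38 (S44), block R, leaf DLOG-NORM (helper13).  Formal Laurent series only.

`θ = q d/dq` (`Fermat.Agent.IgusaDeg.theta`).  For `y ≠ 0` in `k((q))`, `k` a field, put
`dlog y := θ y / y`.  If `Y` satisfies the NORM PRODUCT FORMULA
    `Y(q^ℓ) = y(q^{ℓ²}) · ∏_{b<ℓ} y(ζ^b q)`        (`ζ` a primitive `ℓ`-th root of unity, `ℓ ≠ 0` in `k`)
(shape of `Fermat.Agent.Kronecker.NormProductFormula`, `Y = T_ℓ y = Norm (y(q^ℓ))`), then
    `dlog Y = T_ℓ (dlog y)`,   `(T_ℓ w)_m = w_{ℓ m} + ℓ · w_{m/ℓ}`   (weight `2` Hecke operator on `q`-series).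
Consequently, in characteristic `p`, a relation `Y = c · y^a · H^p` (what `T_ℓ x = a • x` gives for a
`p`-torsion class `x`, `div y = p D`) yields `T_ℓ (dlog y) = a · dlog y`:
the logarithmic differential of the reduction is a Hecke eigen-series.
-/
import Mathlib
import Fermat.Agent.Lib.Kronecker.Formal
import Fermat.Agent.Lib.IgusaDeg.Theta

set_option autoImplicit false

noncomputable section

namespace Fermat.Agent.R38

open ModularCurve Fermat.Agent.Kronecker Fermat.Agent.IgusaDeg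

section Ring

variable {R : Type*} [CommRing R]

/-- `θ` commutes with the substitution `q ↦ z q`. -/
theorem dn_theta_scaleL (z : Rˣ) (y : LaurentSeries R) :
    theta R (scaleL z y) = scaleL z (theta R y) := by
  ext n
  rw [theta_coeff, scaleL_coeff, scaleL_coeff, theta_coeff]
  ring

/-- underlying function of the operator `U_ℓ`: `(U_ℓ w)_m = w_{ℓ m}`. -/
def dnU (ℓ : ℕ) [NeZero ℓ] (w : LaurentSeries R) : LaurentSeries R where
  coeff m := w.coeff ((ℓ : ℤ) * m)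
  isPWO_support' := by
    have hℓ : (0 : ℤ) < ℓ := by exact_mod_cast Nat.pos_of_ne_zero (NeZero.ne ℓ)
    have hbdd : BddBelow (Function.support fun m : ℤ => w.coeff ((ℓ : ℤ) * m)) := by
      by_cases hw0 : w = 0
      · subst hw0
        refine ⟨0, fun m hm => ?_⟩
        simp at hm
      · refine ⟨min w.order 0, fun m hm => ?_⟩
        rw [Function.mem_support] at hm
        have h1 : w.order ≤ (ℓ : ℤ) * m := HahnSeries.order_le_of_coeff_ne_zero hm
        by_cases hm0 : 0 ≤ m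
        · exact le_trans (min_le_right _ _) hm0
        · rw [not_le] at hm0
          have h2 : (ℓ : ℤ) * m ≤ m := by nlinarith
          exact le_trans (min_le_left _ _) (le_trans h1 h2)
    exact hbdd.isWF.isPWO

@[simp] theorem dnU_coeff (ℓ : ℕ) [NeZero ℓ] (w : LaurentSeries R) (m : ℤ) :
    (dnU ℓ w).coeff m = w.coeff ((ℓ : ℤ) * m) := rfl

/-- The weight `2` Hecke operator on `q`-series: `(T_ℓ w)_m = w_{ℓ m} + ℓ · w_{m/ℓ}`. -/
def dnHecke (ℓ : ℕ) [NeZero ℓ] (w : LaurentSeries R) : LaurentSeries R :=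
  dnU ℓ w + (ℓ : LaurentSeries R) * qExpand R ℓ w

theorem dn_natCast_mul_coeff (c : ℕ) (w : LaurentSeries R) (n : ℤ) :
    (((c : ℕ) : LaurentSeries R) * w).coeff n = (c : R) * w.coeff n := by
  have hc : ((c : ℕ) : LaurentSeries R) = HahnSeries.C (c : R) := by
    rw [map_natCast]
  rw [hc, HahnSeries.C_apply, HahnSeries.coeff_single_zero_mul]

theorem dnHecke_coeff_mul (ℓ : ℕ) [NeZero ℓ] (w : LaurentSeries R) (m : ℤ) :
    (dnHecke ℓ w).coeff ((ℓ : ℤ) * m) = w.coeff ((ℓ : ℤ) * ((ℓ : ℤ) * m)) + (ℓ : R) * w.coeff m := by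
  rw [dnHecke, HahnSeries.coeff_add, dnU_coeff, dn_natCast_mul_coeff, qExpand_coeff_mul]

theorem dnHecke_coeff_of_not_dvd (ℓ : ℕ) [NeZero ℓ] (w : LaurentSeries R) {m : ℤ}
    (hm : ¬ (ℓ : ℤ) ∣ m) :
    (dnHecke ℓ w).coeff m = w.coeff ((ℓ : ℤ) * m) := by
  rw [dnHecke, HahnSeries.coeff_add, dnU_coeff, dn_natCast_mul_coeff,
    qExpand_coeff_of_not_dvd ℓ w hm, mul_zero, add_zero]

theorem dnHecke_add (ℓ : ℕ) [NeZero ℓ] (w w' : LaurentSeries R) :
    dnHecke ℓ (w + w') = dnHecke ℓ w + dnHecke ℓ w' := by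
  ext m
  simp only [dnHecke, HahnSeries.coeff_add, dnU_coeff, dn_natCast_mul_coeff, map_add]
  ring

theorem dnHecke_zero (ℓ : ℕ) [NeZero ℓ] : dnHecke ℓ (0 : LaurentSeries R) = 0 := by
  ext m
  simp [dnHecke]

/-- change of coefficients commutes with `U_ℓ`. -/
theorem dn_coeffMap_dnU {S : Type*} [CommRing S] (f : R →+* S) (ℓ : ℕ) [NeZero ℓ]
    (w : LaurentSeries R) : coeffMap f (dnU ℓ w) = dnU ℓ (coeffMap f w) := by
  ext m
  rw [coeffMap_coeff, dnU_coeff, dnU_coeff, coeffMap_coeff]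

/-- change of coefficients commutes with `T_ℓ`. -/
theorem dn_coeffMap_dnHecke {S : Type*} [CommRing S] (f : R →+* S) (ℓ : ℕ) [NeZero ℓ]
    (w : LaurentSeries R) : coeffMap f (dnHecke ℓ w) = dnHecke ℓ (coeffMap f w) := by
  rw [dnHecke, dnHecke, map_add, map_mul, map_natCast, dn_coeffMap_dnU, coeffMap_qExpand]

/-- `Σ_{b<ℓ} w(ζ^b q) = ℓ · (U_ℓ w)(q^ℓ)` for a primitive `ℓ`-th root of unity `ζ` (domain). -/
theorem dn_sum_scaleL [IsDomain R] (ℓ : ℕ) [NeZero ℓ] (ζ : Rˣ) (hζ : IsPrimitiveRoot ζ ℓ)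
    (w : LaurentSeries R) :
    ∑ b ∈ Finset.range ℓ, scaleL (ζ ^ b) w = (ℓ : LaurentSeries R) * qExpand R ℓ (dnU ℓ w) := by
  ext n
  rw [HahnSeries.coeff_sum, dn_natCast_mul_coeff]
  simp only [scaleL_coeff]
  rw [← Finset.sum_mul]
  by_cases hn : (ℓ : ℤ) ∣ n
  · obtain ⟨m, rfl⟩ := hn
    rw [qExpand_coeff_mul, dnU_coeff]
    congr 1
    have h1 : ∀ b ∈ Finset.range ℓ, (((ζ ^ b) ^ ((ℓ : ℤ) * m) : Rˣ) : R) = 1 := by
      intro b _
      have : (ζ ^ b) ^ ((ℓ : ℤ) * m) = 1 := by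
        rw [← zpow_natCast ζ b, ← zpow_mul, mul_comm (b : ℤ), mul_assoc, zpow_mul, zpow_natCast,
          hζ.pow_eq_one, one_zpow]
      rw [this, Units.val_one]
    rw [Finset.sum_congr rfl h1]
    simp
  · rw [qExpand_coeff_of_not_dvd ℓ _ hn, mul_zero]
    have hz : ζ ^ n ≠ 1 := fun h => hn ((hζ.zpow_eq_one_iff_dvd n).mp h)
    have hgeom : ∑ b ∈ Finset.range ℓ, (((ζ ^ b) ^ n : Rˣ) : R) = 0 := by
      have h2 : ∀ b ∈ Finset.range ℓ, (((ζ ^ b) ^ n : Rˣ) : R) = ((ζ ^ n : Rˣ) : R) ^ b := by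
        intro b _
        rw [← Units.val_pow_eq_pow_val, ← zpow_natCast ζ b, ← zpow_mul, mul_comm, zpow_mul,
          zpow_natCast]
      rw [Finset.sum_congr rfl h2]
      have h3 : (((ζ ^ n : Rˣ) : R) - 1) * ∑ b ∈ Finset.range ℓ, ((ζ ^ n : Rˣ) : R) ^ b = 0 := by
        rw [mul_comm, geom_sum_mul, ← Units.val_pow_eq_pow_val, ← zpow_natCast, ← zpow_mul,
          mul_comm, zpow_mul, zpow_natCast, hζ.pow_eq_one, one_zpow, Units.val_one, sub_self]
      rcases mul_eq_zero.mp h3 with h4 | h4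
      · exfalso
        apply hz
        apply Units.ext
        rw [Units.val_one]
        exact sub_eq_zero.mp h4
      · exact h4
    rw [hgeom, zero_mul]

end Ring

section Field

variable {k : Type*} [Field k]

/-- the logarithmic derivative `θ y / y`. -/
def dnLog (y : LaurentSeries k) : LaurentSeries k := theta k y / y

theorem dnLog_mul_self {y : LaurentSeries k} (hy : y ≠ 0) : dnLog y * y = theta k y := by
  rw [dnLog, div_mul_cancel₀ _ hy]

theorem dnLog_mul {x y : LaurentSeries k} (hx : x ≠ 0) (hy : y ≠ 0) :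
    dnLog (x * y) = dnLog x + dnLog y := by
  rw [dnLog, dnLog, dnLog, theta_mul]
  field_simp
  ring

theorem dnLog_one : dnLog (1 : LaurentSeries k) = 0 := by
  rw [dnLog, theta_one, zero_div]

theorem dnLog_C (c : k) : dnLog (HahnSeries.C c : LaurentSeries k) = 0 := by
  rw [dnLog, theta_hahnC, zero_div]

theorem dnLog_prod {ι : Type*} (s : Finset ι) (f : ι → LaurentSeries k) (hf : ∀ i ∈ s, f i ≠ 0) :
    dnLog (∏ i ∈ s, f i) = ∑ i ∈ s, dnLog (f i) := by
  classical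
  induction s using Finset.induction_on with
  | empty => simp [dnLog_one]
  | insert a s ha ih =>
    rw [Finset.prod_insert ha, Finset.sum_insert ha,
      dnLog_mul (hf a (Finset.mem_insert_self a s))
        (Finset.prod_ne_zero_iff.mpr fun i hi => hf i (Finset.mem_insert_of_mem hi)),
      ih fun i hi => hf i (Finset.mem_insert_of_mem hi)]

theorem dnLog_pow {y : LaurentSeries k} (hy : y ≠ 0) (n : ℕ) :
    dnLog (y ^ n) = (n : LaurentSeries k) * dnLog y := by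
  induction n with
  | zero => simp [dnLog_one]
  | succ n ih =>
    rw [pow_succ, dnLog_mul (pow_ne_zero n hy) hy, ih]
    push_cast
    ring

theorem dnLog_inv {y : LaurentSeries k} (hy : y ≠ 0) : dnLog y⁻¹ = - dnLog y := by
  have h := dnLog_mul hy (inv_ne_zero hy)
  rw [mul_inv_cancel₀ hy, dnLog_one] at h
  exact eq_neg_of_add_eq_zero_right h.symm

theorem dnLog_zpow {y : LaurentSeries k} (hy : y ≠ 0) (n : ℤ) :
    dnLog (y ^ n) = (n : LaurentSeries k) * dnLog y := by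
  cases n with
  | ofNat n =>
    rw [Int.ofNat_eq_natCast, zpow_natCast, dnLog_pow hy]
    push_cast
    rfl
  | negSucc n =>
    rw [zpow_negSucc, dnLog_inv (pow_ne_zero _ hy), dnLog_pow hy, Int.cast_negSucc]
    push_cast
    ring

theorem dnLog_qExpand (d : ℕ) [NeZero d] (y : LaurentSeries k) :
    dnLog (qExpand k d y) = (d : LaurentSeries k) * qExpand k d (dnLog y) := by
  rw [dnLog, dnLog, theta_qExpand, map_div₀, mul_div_assoc]

theorem dnLog_scaleL (z : kˣ) (y : LaurentSeries k) :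
    dnLog (scaleL z y) = scaleL z (dnLog y) := by
  rw [dnLog, dnLog, dn_theta_scaleL, map_div₀]

/-- **DLOG-NORM.**  The logarithmic derivative of the norm product is `T_ℓ` of the logarithmic
derivative. -/
theorem dnLog_of_normProduct (ℓ : ℕ) [NeZero ℓ] (hℓ : (ℓ : k) ≠ 0) (ζ : kˣ)
    (hζ : IsPrimitiveRoot ζ ℓ) {y Y : LaurentSeries k} (hy : y ≠ 0)
    (hY : qExpand k ℓ Y =
      qExpand k (ℓ * ℓ) y * ∏ b ∈ Finset.range ℓ, scaleL (ζ ^ b) y) :
    dnLog Y = dnHecke ℓ (dnLog y) := by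
  have hℓL : ((ℓ : ℕ) : LaurentSeries k) ≠ 0 := by
    have hc : ((ℓ : ℕ) : LaurentSeries k) = HahnSeries.C (ℓ : k) := by
      rw [map_natCast]
    rw [hc]
    intro h
    exact hℓ (HahnSeries.C_injective (by rw [h, map_zero]))
  have hA : qExpand k (ℓ * ℓ) y ≠ 0 := fun h =>
    hy ((qExpand_injective (R := k) (ℓ * ℓ)) (by rw [h, map_zero]))
  have hB : ∀ b ∈ Finset.range ℓ, scaleL (ζ ^ b) y ≠ 0 := by
    intro b _ h
    apply hy
    have h1 := congrArg (scaleL ((ζ ^ b)⁻¹)) h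
    rwa [← scaleL_mul, inv_mul_cancel, scaleL_one, map_zero] at h1
  have h1 := congrArg dnLog hY
  rw [dnLog_qExpand, dnLog_mul hA (Finset.prod_ne_zero_iff.mpr hB), dnLog_qExpand,
    dnLog_prod _ _ hB] at h1
  simp only [dnLog_scaleL] at h1
  rw [dn_sum_scaleL ℓ ζ hζ, ← qExpand_qExpand ℓ ℓ] at h1
  -- `ℓ · (dlog Y)(q^ℓ) = ℓ² · (dlog y)(q^{ℓ²}) + ℓ · (U_ℓ dlog y)(q^ℓ)`
  have h2 : (ℓ : LaurentSeries k) * qExpand k ℓ (dnLog Y) =
      (ℓ : LaurentSeries k) * qExpand k ℓ (dnHecke ℓ (dnLog y)) := by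
    rw [h1, dnHecke, map_add, map_mul, map_natCast]
    push_cast
    ring
  exact qExpand_injective (R := k) ℓ (mul_left_cancel₀ hℓL h2)

/-- In characteristic `p`, `θ (H ^ p) = 0`. -/
theorem dn_theta_pow_char (p : ℕ) [CharP k p] (H : LaurentSeries k) :
    theta k (H ^ p) = 0 := by
  rw [theta_pow]
  have hp : ((p : ℕ) : LaurentSeries k) = 0 := by
    have hc : ((p : ℕ) : LaurentSeries k) = HahnSeries.C (p : k) := by
      rw [map_natCast]
    rw [hc, CharP.cast_eq_zero k p, map_zero]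
  rw [hp, zero_mul, zero_mul]

/-- **Eigen-property of the logarithmic differential.**  If `Y = T_ℓ y` (norm product formula) and
`Y = c · y ^ a · H ^ p` in characteristic `p`, then `T_ℓ (dlog y) = a · dlog y`. -/
theorem dnHecke_dnLog_eq (p : ℕ) [CharP k p] (ℓ : ℕ) [NeZero ℓ] (hℓ : (ℓ : k) ≠ 0) (ζ : kˣ)
    (hζ : IsPrimitiveRoot ζ ℓ) {y Y H : LaurentSeries k} (hy : y ≠ 0) (hH : H ≠ 0)
    (hY : qExpand k ℓ Y =
      qExpand k (ℓ * ℓ) y * ∏ b ∈ Finset.range ℓ, scaleL (ζ ^ b) y)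
    (c : k) (hc : c ≠ 0) (a : ℤ) (hrel : Y = HahnSeries.C c * y ^ a * H ^ p) :
    dnHecke ℓ (dnLog y) = (a : LaurentSeries k) * dnLog y := by
  have hC : (HahnSeries.C c : LaurentSeries k) ≠ 0 := by
    intro h
    exact hc (HahnSeries.C_injective (by rw [h, map_zero]))
  rw [← dnLog_of_normProduct ℓ hℓ ζ hζ hy hY, hrel,
    dnLog_mul (mul_ne_zero hC (zpow_ne_zero a hy)) (pow_ne_zero p hH),
    dnLog_mul hC (zpow_ne_zero a hy), dnLog_C, zero_add, dnLog_zpow hy]
  have : dnLog (H ^ p) = 0 := by rw [dnLog, dn_theta_pow_char p H, zero_div]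
  rw [this, add_zero]

end Field

end Fermat.Agent.R38
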