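import Mathlib
import Fermat.Agent.S27.Zeta.Rational
import Fermat.Agent.S27.Zeta.Frob
import Fermat.Agent.S27.Red.Upper
import Fermat.Agent.Lib.BadRed.Mod.FrobAut
import Fermat.Agent.Lib.RR.OfModularCFinal

set_option autoImplicit false

/-!
# Row 38, block R (RET), leaf R-FIN  (helper55)

`B := Pic⁰(F)`, `F / k` a function field over an algebraically closed field `k` of characteristic
`p` in which every element lies in a finite field (`k = 𝔽̄_p`, e.g. the residue field of a place of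
`ℚ̄` above `p`).  `Φ` a semilinear automorphism of `F` which is `c ↦ c ^ (p ^ f)` on `k` (`f ≥ 1`)
and has finite orbits on `F` (automatic when `F` is generated over `k` by `Φ`-fixed elements,
`fin_orbit_of_gen`).  Then

* `fin_fixed_finite`      : `B^Φ = {c ∈ B | Φ c = c}` is FINITE  (class number of a function field
                            over a finite field; proof: S27 part D, `finite_fixed_one`);
* `fin_fixed_pow_finite`  : the same for every power `Φ ^ m`, `m ≥ 1`;
* `fin_ppow_fixed_finite` : `B[n^∞]^Φ` is finite (the shape `(FIN)` of the lead's design note);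
* `fin_exists_exponent`   : `∃ h > 0, ∀ c, Φ c = c → h • c = 0`  (bounded exponent);
* `fin_not_unbounded`     : there is NO family `u_a ∈ B^Φ` (`a : ℕ`) with `n ^ (a + 1) • u_a = 0`,
                            `n ^ a • u_a ≠ 0`  (the contradiction used in `(RET)`).

Modular instance (`F = F_k(N₀) = modularFunctionFieldFullC k N₀`, `Φ = frobAut k N₀ p`, the
coefficientwise Frobenius of `Lib/BadRed/Mod/FrobAut.lean`), UNCONDITIONAL:

* `fin_frobAut_orbit`, `fin_frobAut_exists_frobStr` (= R-FROB (a): `FrobStr` with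
  `σ = frobAut ^ (j m)`), `fin_frobAut_fixed_finite`, `fin_frobAut_ppow_fixed_finite`,
  `fin_frobAut_exists_exponent`, `fin_frobAut_not_unbounded`;
* `fin_halg_of_isIntegral` : the hypothesis `halg` for a field of characteristic `p` integral
  over `ℤ` (residue fields of valuation subrings of `ℚ̄`).
-/

noncomputable section

open AlgebraicCurve IntermediateField ModularCurve

namespace Fermat.Agent.R38

open Fermat.Agent.RR Fermat.Agent.S27 Fermat.Agent.BadRed

section General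

variable {k F : Type*} [Field k] [Field F] [Algebra k F]

/-- **finite orbits from fixed generators**: if `F = k(T)` with `T` pointwise fixed by `σ`, and
`σ` is a power of the Frobenius on `k = 𝔽̄_p`, then every `σ`-orbit on `F` is finite. -/
theorem fin_orbit_of_gen (σ : SemilinearAut k F) {p f : ℕ}
    (hbase : ∀ c : k, SemilinearAut.baseAut σ c = c ^ (p ^ f))
    (halg : ∀ c : k, ∃ n : ℕ, 0 < n ∧ c ^ (p ^ n) = c)
    (T : Set F) (hT : ∀ t ∈ T, σ • t = t) (hgen : IntermediateField.adjoin k T = ⊤) (x : F) :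
    ∃ m : ℕ, 0 < m ∧ (σ ^ m) • x = x := by
  have hx : x ∈ IntermediateField.adjoin k T := by rw [hgen]; trivial
  induction hx using IntermediateField.adjoin_induction with
  | mem y hy => exact ⟨1, one_pos, by rw [pow_one]; exact hT y hy⟩
  | algebraMap c =>
    obtain ⟨n, hn, hc⟩ := halg c
    refine ⟨n, hn, ?_⟩
    rw [SemilinearAut.smul_algebraMap, z1_baseAut_pow σ hbase n c, mul_comm, z1_pow_fix hc f]
  | add y z _ _ hy hz => exact z1_orbit_add σ hy hz
  | inv y _ hy => exact z1_orbit_inv σ hy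
  | mul y z _ _ hy hz => exact z1_orbit_mul σ hy hz

/-- finite orbits pass to powers. -/
theorem fin_orbit_pow (σ : SemilinearAut k F)
    (horb : ∀ x : F, ∃ m : ℕ, 0 < m ∧ (σ ^ m) • x = x) (j : ℕ) (x : F) :
    ∃ m : ℕ, 0 < m ∧ ((σ ^ j) ^ m) • x = x := by
  obtain ⟨m, hm, hx⟩ := horb x
  refine ⟨m, hm, ?_⟩
  rw [← pow_mul, mul_comm]
  exact z1_pow_mul_smul σ hx j

/-- a class fixed by `σ` is fixed by every power of `σ`. -/
theorem fin_pow_smul_eq {M : Type*} [Monoid M] {X : Type*} [MulAction M X] (σ : M) {c : X}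
    (hc : σ • c = c) (j : ℕ) : (σ ^ j) • c = c := by
  induction j with
  | zero => simp
  | succ j ih => rw [pow_succ, mul_smul, hc, ih]

/-- **(FIN), general form.**  `Pic⁰(F)^Φ` is finite. -/
theorem fin_fixed_finite [IsAlgClosed k] (hRR : IsRRField k F) {p : ℕ} (hp : p.Prime)
    [CharP k p] {f : ℕ} (hf : 0 < f) (σ : SemilinearAut k F)
    (hbase : ∀ c : k, SemilinearAut.baseAut σ c = c ^ (p ^ f))
    (horb : ∀ x : F, ∃ m : ℕ, 0 < m ∧ (σ ^ m) • x = x) :
    {c : Pic0 k F | σ • c = c}.Finite := by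
  obtain ⟨P₀⟩ := nonempty_place hRR
  obtain ⟨j, hj, hfix⟩ := exists_mem_fixPl_aux hRR σ horb P₀
  let S : FrobStr k F :=
    ⟨p, hp, inferInstance, f * j, Nat.mul_pos hf hj, σ ^ j, z1_baseAut_pow σ hbase j,
      fin_orbit_pow σ horb j, P₀, hfix⟩
  refine (finite_fixed_one hRR S).subset fun c hc => ?_
  show c ∈ fixedPow S.sigmaEnd 1
  rw [mem_fixedPow, pow_one, FrobStr.sigmaEnd_apply]
  exact fin_pow_smul_eq σ hc j

/-- **(FIN)** for a power `Φ ^ m` of the Frobenius. -/
theorem fin_fixed_pow_finite [IsAlgClosed k] (hRR : IsRRField k F) {p : ℕ} (hp : p.Prime)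
    [CharP k p] {f : ℕ} (hf : 0 < f) (σ : SemilinearAut k F)
    (hbase : ∀ c : k, SemilinearAut.baseAut σ c = c ^ (p ^ f))
    (horb : ∀ x : F, ∃ m : ℕ, 0 < m ∧ (σ ^ m) • x = x) {m : ℕ} (hm : 0 < m) :
    {c : Pic0 k F | (σ ^ m) • c = c}.Finite :=
  fin_fixed_finite hRR hp (Nat.mul_pos hf hm) (σ ^ m) (z1_baseAut_pow σ hbase m)
    (fin_orbit_pow σ horb m)

/-- **(FIN)**, the shape of the design note: `B[n^∞]^Φ` is finite. -/
theorem fin_ppow_fixed_finite [IsAlgClosed k] (hRR : IsRRField k F) {p : ℕ} (hp : p.Prime)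
    [CharP k p] {f : ℕ} (hf : 0 < f) (σ : SemilinearAut k F)
    (hbase : ∀ c : k, SemilinearAut.baseAut σ c = c ^ (p ^ f))
    (horb : ∀ x : F, ∃ m : ℕ, 0 < m ∧ (σ ^ m) • x = x) (n : ℕ) :
    {c : Pic0 k F | (∃ a : ℕ, n ^ a • c = 0) ∧ σ • c = c}.Finite :=
  (fin_fixed_finite hRR hp hf σ hbase horb).subset fun _ hc => hc.2

/-- the subgroup of `σ`-fixed classes. -/
def finFixed (σ : SemilinearAut k F) : AddSubgroup (Pic0 k F) where
  carrier := {c | σ • c = c}
  zero_mem' := smul_zero σ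
  add_mem' := fun {a b} ha hb => by
    show σ • (a + b) = a + b
    rw [smul_add, ha, hb]
  neg_mem' := fun {a} ha => by
    show σ • (-a) = -a
    rw [smul_neg, ha]

theorem mem_finFixed (σ : SemilinearAut k F) (c : Pic0 k F) : c ∈ finFixed σ ↔ σ • c = c :=
  Iff.rfl

/-- **bounded exponent**: one positive integer kills all `Φ`-fixed classes. -/
theorem fin_exists_exponent [IsAlgClosed k] (hRR : IsRRField k F) {p : ℕ} (hp : p.Prime)
    [CharP k p] {f : ℕ} (hf : 0 < f) (σ : SemilinearAut k F)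
    (hbase : ∀ c : k, SemilinearAut.baseAut σ c = c ^ (p ^ f))
    (horb : ∀ x : F, ∃ m : ℕ, 0 < m ∧ (σ ^ m) • x = x) :
    ∃ h : ℕ, 0 < h ∧ ∀ c : Pic0 k F, σ • c = c → h • c = 0 := by
  have hfin : (finFixed σ : Set (Pic0 k F)).Finite := fin_fixed_finite hRR hp hf σ hbase horb
  have : Finite (finFixed σ) := hfin.to_subtype
  refine ⟨Nat.card (finFixed σ), Nat.card_pos, fun c hc => ?_⟩
  have h := card_nsmul_eq_zero' (G := finFixed σ) (x := ⟨c, hc⟩)
  exact congrArg Subtype.val h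

/-- **the contradiction of `(RET)`**: there is no family of `Φ`-fixed classes `u_a` of exact
order `n ^ (a + 1)`. -/
theorem fin_not_unbounded [IsAlgClosed k] (hRR : IsRRField k F) {p : ℕ} (hp : p.Prime)
    [CharP k p] {f : ℕ} (hf : 0 < f) (σ : SemilinearAut k F)
    (hbase : ∀ c : k, SemilinearAut.baseAut σ c = c ^ (p ^ f))
    (horb : ∀ x : F, ∃ m : ℕ, 0 < m ∧ (σ ^ m) • x = x) (n : ℕ) :
    ¬ ∀ a : ℕ, ∃ c : Pic0 k F, σ • c = c ∧ n ^ (a + 1) • c = 0 ∧ n ^ a • c ≠ 0 := by
  intro hall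
  have hfin := fin_fixed_finite hRR hp hf σ hbase horb
  choose u hu1 hu2 hu3 using hall
  have hinj : Function.Injective u := by
    intro a b hab
    by_contra hne
    rcases Nat.lt_or_gt_of_ne hne with h | h
    · -- a < b : n^(a+1) u_b = 0, but n^b u_b ≠ 0 with a + 1 ≤ b
      apply hu3 b
      obtain ⟨d, rfl⟩ : ∃ d, b = a + 1 + d := ⟨b - (a + 1), by omega⟩
      rw [pow_add, mul_comm, mul_smul, ← hab, hu2 a, smul_zero]
    · apply hu3 a
      obtain ⟨d, rfl⟩ : ∃ d, a = b + 1 + d := ⟨a - (b + 1), by omega⟩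
      rw [pow_add, mul_comm, mul_smul, hab, hu2 b, smul_zero]
  have hinf : (Set.range u).Infinite := Set.infinite_range_of_injective hinj
  exact hinf (hfin.subset (by rintro _ ⟨a, rfl⟩; exact hu1 a))

/-- **a Frobenius structure with prescribed `σ`-power**: for every place `P₀` there is `j > 0`
such that for every `m > 0` there is a Frobenius structure with `σ`-component `σ ^ (j * m)`,
`q = p ^ (f j m)` and fixed place `P₀`. -/
theorem fin_exists_frobStr (hRR : IsRRField k F) {p : ℕ} (hp : p.Prime)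
    [CharP k p] {f : ℕ} (hf : 0 < f) (σ : SemilinearAut k F)
    (hbase : ∀ c : k, SemilinearAut.baseAut σ c = c ^ (p ^ f))
    (horb : ∀ x : F, ∃ m : ℕ, 0 < m ∧ (σ ^ m) • x = x) (P₀ : Place k F) :
    ∃ j : ℕ, 0 < j ∧ ∀ m : ℕ, 0 < m →
      ∃ S : FrobStr k F, S.p = p ∧ S.f = f * (j * m) ∧ S.σ = σ ^ (j * m) ∧ S.P₀ = P₀ := by
  obtain ⟨j, hj, hfix⟩ := exists_mem_fixPl_aux hRR σ horb P₀
  refine ⟨j, hj, fun m hm => ?_⟩
  have hfix' : (σ ^ (j * m)) • P₀ = P₀ := by
    rw [pow_mul]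
    exact fin_pow_smul_eq (σ ^ j) hfix m
  exact ⟨⟨p, hp, inferInstance, f * (j * m), Nat.mul_pos hf (Nat.mul_pos hj hm), σ ^ (j * m),
    z1_baseAut_pow σ hbase (j * m), fin_orbit_pow σ horb (j * m), P₀, hfix'⟩, rfl, rfl, rfl, rfl⟩

/-- the preimage of the generators generates `k(T)` (as a field over `k`). -/
theorem fin_adjoin_preimage_eq_top {E : Type*} [Field E] [Algebra k E] (T : Set E) :
    IntermediateField.adjoin k
      (((↑) : IntermediateField.adjoin k T → E) ⁻¹' T) = ⊤ := by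
  apply IntermediateField.lift_injective
  rw [IntermediateField.lift_adjoin, IntermediateField.lift_top,
    Set.image_preimage_eq_inter_range, Subtype.range_coe]
  congr 1
  exact Set.inter_eq_left.mpr (IntermediateField.subset_adjoin k T)

/-- **finite orbits on `k(T)`** when the generators `T` are fixed. -/
theorem fin_orbit_of_adjoin {E : Type*} [Field E] [Algebra k E] {T : Set E}
    (σ : SemilinearAut k (IntermediateField.adjoin k T)) {p f : ℕ}
    (hbase : ∀ c : k, SemilinearAut.baseAut σ c = c ^ (p ^ f))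
    (halg : ∀ c : k, ∃ n : ℕ, 0 < n ∧ c ^ (p ^ n) = c)
    (hT : ∀ t : IntermediateField.adjoin k T, (t : E) ∈ T → σ • t = t)
    (x : IntermediateField.adjoin k T) :
    ∃ m : ℕ, 0 < m ∧ (σ ^ m) • x = x :=
  fin_orbit_of_gen σ hbase halg _ (fun t ht => hT t ht) (fin_adjoin_preimage_eq_top T) x

end General

/-! ### the hypothesis `halg` -/

/-- in a field of characteristic `p` which is integral over `ℤ` every element lies in a finite
field (S27, `up_exists_pow_eq`). -/
theorem fin_halg_of_isIntegral (p : ℕ) (hp : p.Prime) (k : Type*) [Field k] [CharP k p]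
    (hk : Algebra.IsIntegral ℤ k) (c : k) : ∃ n : ℕ, 0 < n ∧ c ^ (p ^ n) = c :=
  up_exists_pow_eq p hp k hk c

/-! ### the modular instance -/

section Modular

variable (k : Type*) [Field k] (N₀ : ℕ) (p : ℕ) [Fact p.Prime] [CharP k p] [PerfectRing k p]

/-- the base automorphism of `frobAut`, in the shape of `FrobStr`. -/
theorem fin_frobAut_base (c : k) :
    SemilinearAut.baseAut (frobAut k N₀ p) c = c ^ (p ^ 1) := by
  rw [pow_one]
  exact baseAut_frobAut_apply k N₀ p c

/-- the generators `j(q^d)` of `F_k(N₀)` are fixed by the coefficientwise Frobenius, so all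
orbits of `frobAut` on `F_k(N₀)` are finite. -/
theorem fin_frobAut_orbit (halg : ∀ c : k, ∃ n : ℕ, 0 < n ∧ c ^ (p ^ n) = c)
    (x : modularFunctionFieldFullC k N₀) :
    ∃ m : ℕ, 0 < m ∧ (frobAut k N₀ p ^ m) • x = x := by
  have key : ∀ t : modularFunctionFieldFullC k N₀,
      (t : LaurentSeries k) ∈ divisorExpansionsC k N₀ → frobAut k N₀ p • t = t := by
    intro t ht
    apply Subtype.ext
    rw [coe_frobAut_smul]
    obtain ⟨d, hd, hdvd, hd'⟩ := ht
    rw [hd', coeffMap_qExpand, coeffMap_jqModC]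
  exact fin_orbit_of_adjoin (T := divisorExpansionsC k N₀) (frobAut k N₀ p)
    (fin_frobAut_base k N₀ p) halg key x

variable [IsAlgClosed k] [NeZero N₀]

/-- **(FIN), modular form.**  For `B = Pic⁰(F_k(N₀))`, `k = 𝔽̄_p`, and `Φ = Frob ^ f` (`f ≥ 1`)
the group `B^Φ` is finite. -/
theorem fin_frobAut_fixed_finite (halg : ∀ c : k, ∃ n : ℕ, 0 < n ∧ c ^ (p ^ n) = c)
    {f : ℕ} (hf : 0 < f) :
    {c : Pic0 k (modularFunctionFieldFullC k N₀) | (frobAut k N₀ p ^ f) • c = c}.Finite :=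
  fin_fixed_pow_finite (Fermat.Agent.RRMod.isRRField_fullC' k N₀) (Fact.out : p.Prime) one_pos
    (frobAut k N₀ p) (fin_frobAut_base k N₀ p) (fin_frobAut_orbit k N₀ p halg) hf

/-- **R-FROB (a), modular form**: Frobenius structures on `F_k(N₀)` whose `σ` is a power of the
coefficientwise Frobenius `frobAut`, with any prescribed fixed place `P₀` and exponent divisible
by any prescribed `m`. -/
theorem fin_frobAut_exists_frobStr (halg : ∀ c : k, ∃ n : ℕ, 0 < n ∧ c ^ (p ^ n) = c)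
    (P₀ : Place k (modularFunctionFieldFullC k N₀)) :
    ∃ j : ℕ, 0 < j ∧ ∀ m : ℕ, 0 < m →
      ∃ S : FrobStr k (modularFunctionFieldFullC k N₀),
        S.p = p ∧ S.f = j * m ∧ S.σ = frobAut k N₀ p ^ (j * m) ∧ S.P₀ = P₀ := by
  obtain ⟨j, hj, h⟩ := fin_exists_frobStr (Fermat.Agent.RRMod.isRRField_fullC' k N₀)
    (Fact.out : p.Prime) one_pos (frobAut k N₀ p) (fin_frobAut_base k N₀ p)
    (fin_frobAut_orbit k N₀ p halg) P₀
  refine ⟨j, hj, fun m hm => ?_⟩
  obtain ⟨S, h1, h2, h3, h4⟩ := h m hm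
  exact ⟨S, h1, by rw [h2, one_mul], h3, h4⟩

/-- **(FIN), modular form**, `B[n^∞]^Φ` is finite. -/
theorem fin_frobAut_ppow_fixed_finite (halg : ∀ c : k, ∃ n : ℕ, 0 < n ∧ c ^ (p ^ n) = c)
    {f : ℕ} (hf : 0 < f) (n : ℕ) :
    {c : Pic0 k (modularFunctionFieldFullC k N₀) |
      (∃ a : ℕ, n ^ a • c = 0) ∧ (frobAut k N₀ p ^ f) • c = c}.Finite :=
  (fin_frobAut_fixed_finite k N₀ p halg hf).subset fun _ hc => hc.2

/-- **bounded exponent, modular form.** -/
theorem fin_frobAut_exists_exponent (halg : ∀ c : k, ∃ n : ℕ, 0 < n ∧ c ^ (p ^ n) = c)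
    {f : ℕ} (hf : 0 < f) :
    ∃ h : ℕ, 0 < h ∧ ∀ c : Pic0 k (modularFunctionFieldFullC k N₀),
      (frobAut k N₀ p ^ f) • c = c → h • c = 0 :=
  fin_exists_exponent (Fermat.Agent.RRMod.isRRField_fullC' k N₀) (Fact.out : p.Prime)
    (Nat.mul_pos one_pos hf) (frobAut k N₀ p ^ f)
    (z1_baseAut_pow (frobAut k N₀ p) (fin_frobAut_base k N₀ p) f)
    (fin_orbit_pow (frobAut k N₀ p) (fin_frobAut_orbit k N₀ p halg) f)

/-- **the contradiction of `(RET)`, modular form.** -/
theorem fin_frobAut_not_unbounded (halg : ∀ c : k, ∃ n : ℕ, 0 < n ∧ c ^ (p ^ n) = c)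
    {f : ℕ} (hf : 0 < f) (n : ℕ) :
    ¬ ∀ a : ℕ, ∃ c : Pic0 k (modularFunctionFieldFullC k N₀),
      (frobAut k N₀ p ^ f) • c = c ∧ n ^ (a + 1) • c = 0 ∧ n ^ a • c ≠ 0 :=
  fin_not_unbounded (Fermat.Agent.RRMod.isRRField_fullC' k N₀) (Fact.out : p.Prime)
    (Nat.mul_pos one_pos hf) (frobAut k N₀ p ^ f)
    (z1_baseAut_pow (frobAut k N₀ p) (fin_frobAut_base k N₀ p) f)
    (fin_orbit_pow (frobAut k N₀ p) (fin_frobAut_orbit k N₀ p halg) f) n

end Modular

end Fermat.Agent.R38
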