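import Mathlib
import Fermat.Prelude.Def_ModularCurve_ReductionModL
import Fermat.Prelude.Def_EllipticCurve_FrobeniusTrace
import Fermat.Agent.R38.Rig
import Fermat.Agent.S17.W.OpenStab
import Fermat.Agent.S27.Zeta.Rational
import Fermat.Agent.Lib.FrobDensity.Bridge
import Fermat.Agent.Lib.BadRed.Mod.FrobAut
import Fermat.Agent.Lib.GaussInt.ModularInst
import Fermat.Agent.Lib.RR.OfModularCFinal

/-!
# Row 38, block R, seat R-FROB: wiring of `RigFrobAt` (helper73)

`rigFrobAt_of_galRed` : from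

* `GalRedAt M A` (GAL-RED, helper79): the reduction map intertwines a Frobenius element at `A`
  with the coefficientwise Frobenius of `F_k(M)`;
* `FrobStrAt p M A` (FROB-STR, helper18 / helper89): a positive power of the coefficientwise
  Frobenius is (the `σ` of) a Frobenius structure;

we get `RigFrobAt GQ (reductionModL A M) z` for every `z : JZero M`, using the open stabiliser of
`z` (`S17W.openStab`), the existence of a Frobenius element at `A`
(`FrobBridge.exists_isFrobeniusAt_of_liesOver`) and the finiteness of the Frobenius-fixed classes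
(`S27.finite_fixed_one`).
-/

set_option autoImplicit false

noncomputable section

namespace Fermat.Agent.R38

open ModularCurve AlgebraicCurve Fermat.Agent.F3 Fermat.Agent.S27

local notation "Qb" => AlgebraicClosure ℚ

/-! ### generalities on Frobenius elements -/

/-- a power of a Frobenius element is a Frobenius element -/
theorem isFrobeniusAt_pow (A : ValuationSubring Qb) (σ : GQ) (q : ℕ) (h : A.IsFrobeniusAt σ q)
    (m : ℕ) : A.IsFrobeniusAt (σ ^ m) (q ^ m) := by
  obtain ⟨hσ, hx⟩ := h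
  have hmem : σ ^ m ∈ A.decompositionSubgroup ℚ := Subgroup.pow_mem _ hσ m
  have key : ∀ (n : ℕ) (x : IsLocalRing.ResidueField A),
      ((⟨σ, hσ⟩ : A.decompositionSubgroup ℚ) ^ n) • x = x ^ (q ^ n) := by
    intro n
    induction n with
    | zero => intro x; simp
    | succ n ih =>
      intro x
      rw [pow_succ, mul_smul, hx, ih, ← pow_mul, pow_succ, mul_comm]
  refine ⟨hmem, fun x => ?_⟩
  have e : (⟨σ ^ m, hmem⟩ : A.decompositionSubgroup ℚ)
      = (⟨σ, hσ⟩ : A.decompositionSubgroup ℚ) ^ m := Subtype.ext rfl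
  rw [e, key]

/-- powers of an automorphism acting as `x ↦ x ^ p` -/
theorem ringAut_pow_apply_of_frob {k : Type*} [Field k] (φ : k ≃+* k) (p : ℕ)
    (hφ : ∀ x, φ x = x ^ p) (j : ℕ) (y : k) : (φ ^ j) y = y ^ (p ^ j) := by
  induction j generalizing y with
  | zero => simp
  | succ j ih =>
    rw [pow_succ, RingAut.mul_apply, hφ, ih, ← pow_mul, pow_succ, mul_comm]

/-- some positive power of `σ` fixes a given number field pointwise -/
theorem exists_pow_fix (L : IntermediateField ℚ Qb) [FiniteDimensional ℚ L] (σ : GQ) :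
    ∃ m : ℕ, 0 < m ∧ ∀ y ∈ L, (σ ^ m) y = y := by
  classical
  -- the restrictions of the powers of `σ` to `L` lie in a finite set
  let f : ℕ → (L →ₐ[ℚ] Qb) := fun n => ((σ ^ n : GQ) : Qb →ₐ[ℚ] Qb).comp L.val
  have hfin : Finite (L →ₐ[ℚ] Qb) := inferInstance
  obtain ⟨a, b, hab, hf⟩ := Finite.exists_ne_map_eq_of_infinite f
  wlog hlt : a < b generalizing a b
  · exact this b a hab.symm hf.symm (lt_of_le_of_ne (not_lt.mp hlt) hab.symm)
  refine ⟨b - a, Nat.sub_pos_of_lt hlt, fun y hy => ?_⟩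
  have h1 : (σ ^ a) y = (σ ^ b) y := DFunLike.congr_fun hf ⟨y, hy⟩
  have h2 : σ ^ b = σ ^ a * σ ^ (b - a) := by
    rw [← pow_add, Nat.add_sub_cancel' hlt.le]
  rw [h2] at h1
  have h3 : (σ ^ a) y = (σ ^ a) ((σ ^ (b - a)) y) := h1
  exact ((σ ^ a).injective h3).symm

/-! ### the abstract core -/

/-- abstract wiring: a Frobenius structure `Φ` whose `σ` is `c (φ ^ j)`, an element `g` with
`red ∘ g = c (φ ^ j) ^ m ∘ red` fixing `z`. -/
theorem rigFrobAt_core {k F : Type*} [Field k] [Field F] [Algebra k F] [IsAlgClosed k]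
    (hRR : Fermat.Agent.RR.IsRRField k F)
    {G J : Type*} [Group G] [AddCommGroup J] [DistribMulAction G J]
    (red : J →+ Pic0 k F) (Φ : FrobStr k F)
    (g : G) (m : ℕ) (hm : 0 < m) (z : J) (hz : g • z = z)
    (hred : ∀ w, red (g • w) = (Φ.σ ^ m) • red w) :
    RigFrobAt G red z := by
  have hfin : {y : Pic0 k F | (Φ.sigmaEnd ^ m : AddMonoid.End _) y = y}.Finite := by
    have h := finite_fixed_one hRR (Φ.pow m hm)
    rw [Φ.fixedPow_pow m hm 1, mul_one] at h
    exact h
  refine rigFrobAt_of_finite_fixed red z g hz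
    (Φ.sigmaEnd ^ m : AddMonoid.End _) (fun w => ?_) hfin
  rw [hred w]
  exact (Φ.sigmaEnd_pow_apply m _).symm

/-! ### the two inputs -/

set_option synthInstance.maxHeartbeats 400000 in
/-- **(GAL-RED)** at `A`: a Frobenius element `σ` at `A` (for `q`, any power of `p`) is
intertwined by the reduction map with the coefficientwise action of `x ↦ x ^ q`. -/
def GalRedAt (M : ℕ) [NeZero M] (A : ValuationSubring Qb) : Prop :=
  ∀ (σ : GQ) (q : ℕ), A.IsFrobeniusAt σ q →
    ∀ τ : IsLocalRing.ResidueField A ≃+* IsLocalRing.ResidueField A, (∀ x, τ x = x ^ q) →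
      ∀ w : JZero M, reductionModL A M (σ • w) =
        Fermat.Agent.BadRed.coeffAut (IsLocalRing.ResidueField A) M τ • reductionModL A M w

set_option synthInstance.maxHeartbeats 400000 in
/-- **(FROB-STR)** at `A`: a positive power of the coefficientwise Frobenius `x ↦ x ^ p` is (the
`σ` of) a Frobenius structure on `F_k(M)`. -/
def FrobStrAt (p M : ℕ) (A : ValuationSubring Qb) : Prop :=
  ∃ (Φ : FrobStr (IsLocalRing.ResidueField A)
      (modularFunctionFieldFullC (IsLocalRing.ResidueField A) M))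
    (φ : IsLocalRing.ResidueField A ≃+* IsLocalRing.ResidueField A) (j : ℕ),
    0 < j ∧ (∀ x, φ x = x ^ p) ∧
      Φ.σ = Fermat.Agent.BadRed.coeffAut (IsLocalRing.ResidueField A) M (φ ^ j)

/-! ### the wiring -/

set_option synthInstance.maxHeartbeats 400000 in
set_option maxHeartbeats 1000000 in
/-- **(R-FROB)** from (GAL-RED) and (FROB-STR). -/
theorem rigFrobAt_of_galRed (p M : ℕ) [NeZero M] (hp : p.Prime) (A : ValuationSubring Qb)
    (hA : A.LiesOverPrime p) (hGal : GalRedAt M A) (hFr : FrobStrAt p M A) (z : JZero M) :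
    RigFrobAt GQ (reductionModL A M) z := by
  have hk : IsAlgClosed (IsLocalRing.ResidueField A) :=
    Fermat.Agent.GaussInt.isAlgClosed_residue A
  obtain ⟨σ₀, hσ₀, -, -⟩ := Fermat.Agent.FrobBridge.exists_isFrobeniusAt_of_liesOver A p hp hA
  obtain ⟨L, hL, hLz⟩ := Fermat.Agent.S17W.openStab M z
  obtain ⟨Φ, φ, j, hj, hφ, hΦ⟩ := hFr
  obtain ⟨m, hm, hfix⟩ := @exists_pow_fix L hL (σ₀ ^ j)
  have hτ : ∀ x, ((φ ^ j) ^ m) x = x ^ ((p ^ j) ^ m) := fun x =>
    ringAut_pow_apply_of_frob (φ ^ j) (p ^ j) (fun y => ringAut_pow_apply_of_frob φ p hφ j y) m x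
  have hFrob : A.IsFrobeniusAt ((σ₀ ^ j) ^ m) ((p ^ j) ^ m) :=
    isFrobeniusAt_pow A (σ₀ ^ j) (p ^ j) (isFrobeniusAt_pow A σ₀ p hσ₀ j) m
  have hred := hGal ((σ₀ ^ j) ^ m) ((p ^ j) ^ m) hFrob ((φ ^ j) ^ m) hτ
  refine @rigFrobAt_core _ _ _ _ _ hk
    (Fermat.Agent.RRMod.isRRField_fullC' (IsLocalRing.ResidueField A) M) GQ (JZero M) _ _ _
    (reductionModL A M) Φ ((σ₀ ^ j) ^ m) m hm z (hLz _ hfix) (fun w => ?_)
  rw [hred w, hΦ, map_pow]

end Fermat.Agent.R38
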