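import Mathlib
import Fermat.Agent.R38.R.RigFrob
import Fermat.Agent.R38.R.Fin
import Fermat.Agent.Lib.BadRed.PeuD.ResLift

/-!
# Row 38, block R, seat FROB-STR (helper89): `FrobStrAt p M A`

For a place `A` of `ℚ̄` over the prime `p` and every level `M > 0`, a positive power of the
coefficientwise Frobenius of `F_k(M)` (`k` the residue field of `A`) is the `σ` of a Frobenius
structure: this is `FrobStrAt p M A` of `R38/R/RigFrob.lean` (helper73), obtained from helper55's
`fin_frobAut_exists_frobStr` (`R38/R/Fin.lean`).

* `frobStr_halg` : every element of the residue field of `A` lies in a finite field;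
* `frobStrAt` : `FrobStrAt p M A`;
* `rigFrobAt_of_galRedAt` : (R-FROB) from (GAL-RED) alone.
-/

set_option autoImplicit false
set_option linter.style.haveILetI false

noncomputable section

namespace Fermat.Agent.R38

open ModularCurve AlgebraicCurve Fermat.Agent.F3 Fermat.Agent.S27

local notation "Qb" => AlgebraicClosure ℚ

/-- an element of a field of characteristic `p` which is algebraic over the prime field is fixed
by a positive power of the Frobenius. -/
theorem frobStr_pow_eq_self {k : Type*} [Field k] (p : ℕ) [Fact p.Prime] [Algebra (ZMod p) k]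
    (x : k) (hx : IsAlgebraic (ZMod p) x) : ∃ n : ℕ, 0 < n ∧ x ^ (p ^ n) = x := by
  classical
  haveI : FiniteDimensional (ZMod p) (IntermediateField.adjoin (ZMod p) {x}) :=
    IntermediateField.adjoin.finiteDimensional hx.isIntegral
  haveI : Finite (IntermediateField.adjoin (ZMod p) {x}) := Module.finite_of_finite (ZMod p)
  letI : Fintype (IntermediateField.adjoin (ZMod p) {x}) := Fintype.ofFinite _
  haveI : CharP (IntermediateField.adjoin (ZMod p) {x}) p :=
    charP_of_injective_algebraMap (algebraMap (ZMod p) _).injective p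
  obtain ⟨f, -, hcard⟩ := FiniteField.card (IntermediateField.adjoin (ZMod p) {x}) p
  let y : IntermediateField.adjoin (ZMod p) {x} :=
    ⟨x, IntermediateField.mem_adjoin_simple_self (ZMod p) x⟩
  have hpow := FiniteField.pow_card y
  rw [hcard] at hpow
  refine ⟨(f : ℕ), f.pos, ?_⟩
  have := congrArg Subtype.val hpow
  simpa [y] using this

/-- every element of the residue field of a place of `ℚ̄` over `p` lies in a finite field. -/
theorem frobStr_halg (A : ValuationSubring Qb) {p : ℕ} (hp : p.Prime) (hA : A.LiesOverPrime p)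
    (c : IsLocalRing.ResidueField A) : ∃ n : ℕ, 0 < n ∧ c ^ (p ^ n) = c := by
  haveI : Fact p.Prime := ⟨hp⟩
  haveI := Fermat.Agent.PeuD.resLift_charP A hp hA
  letI : Algebra (ZMod p) (IsLocalRing.ResidueField A) := ZMod.algebra _ p
  obtain ⟨a, rfl⟩ := IsLocalRing.residue_surjective c
  exact frobStr_pow_eq_self p _ (Fermat.Agent.PeuD.resLift_isAlgebraic A a)

set_option synthInstance.maxHeartbeats 400000 in
set_option maxHeartbeats 1000000 in
/-- **(FROB-STR)**: for a place `A` of `ℚ̄` over `p` and a level `M > 0`, a positive power of the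
coefficientwise Frobenius of `F_k(M)` is the `σ` of a Frobenius structure. -/
theorem frobStrAt (p M : ℕ) [NeZero M] (hp : p.Prime) (A : ValuationSubring Qb)
    (hA : A.LiesOverPrime p) : FrobStrAt p M A := by
  haveI : Fact p.Prime := ⟨hp⟩
  haveI hk : IsAlgClosed (IsLocalRing.ResidueField A) :=
    Fermat.Agent.GaussInt.isAlgClosed_residue A
  haveI := Fermat.Agent.PeuD.resLift_charP A hp hA
  haveI : PerfectRing (IsLocalRing.ResidueField A) p := PerfectField.toPerfectRing p
  obtain ⟨P₀⟩ := Fermat.Agent.RR.nonempty_place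
    (Fermat.Agent.RRMod.isRRField_fullC' (IsLocalRing.ResidueField A) M)
  obtain ⟨j, hj, h⟩ := fin_frobAut_exists_frobStr (IsLocalRing.ResidueField A) M p
    (frobStr_halg A hp hA) P₀
  obtain ⟨Φ, -, -, hσ, -⟩ := h 1 one_pos
  refine ⟨Φ, frobeniusEquiv (IsLocalRing.ResidueField A) p, j, hj, fun x => ?_, ?_⟩
  · exact frobeniusEquiv_apply _ p x
  · rw [hσ, mul_one, map_pow]
    rfl

set_option synthInstance.maxHeartbeats 400000 in
set_option maxHeartbeats 1000000 in
/-- **(R-FROB)** from (GAL-RED) alone. -/
theorem rigFrobAt_of_galRedAt (p M : ℕ) [NeZero M] (hp : p.Prime) (A : ValuationSubring Qb)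
    (hA : A.LiesOverPrime p) (hGal : GalRedAt M A) (z : JZero M) :
    RigFrobAt GQ (reductionModL A M) z :=
  rigFrobAt_of_galRed p M hp A hA hGal (frobStrAt p M hp A hA) z

end Fermat.Agent.R38
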