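import Mathlib

set_option autoImplicit false

/-!
# Row 38, block R (RET): rigidity after reduction, abstract form  (helper73)

`J` a divisible abelian group (`J₀(M₀)(ℚ̄)`), `s` an additive automorphism (a power of a
Frobenius element), `φ` an endomorphism commuting with `s` and killing torsion (a polynomial in
the Hecke operators which vanishes on cusp forms), `r : J →+ Pc` (Deuring reduction) such that
the image of the `s`-fixed points is killed by some `e > 0` (it sits in the finite group of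
Frobenius-fixed classes).  Then `r (φ x) = 0` for every `s`-fixed `x`.

No Mordell–Weil, no lift of torsion.
-/

namespace Fermat.Agent.R38

variable {J Pc : Type*} [AddCommGroup J] [AddCommGroup Pc]

/-- **RIG-abs.** -/
theorem rig_abs (s φ : J →+ J) (hcomm : ∀ x, φ (s x) = s (φ x))
    (htors : ∀ t : J, ∀ n : ℕ, 0 < n → n • t = 0 → φ t = 0)
    (hdiv : ∀ n : ℕ, 0 < n → ∀ y : J, ∃ w : J, n • w = y)
    (r : J →+ Pc) (e : ℕ) (he : 0 < e) (hfin : ∀ w : J, s w = w → e • r w = 0)
    (x : J) (hx : s x = x) : r (φ x) = 0 := by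
  obtain ⟨y, rfl⟩ := hdiv e he x
  have h1 : e • (s y - y) = 0 := by
    rw [smul_sub, ← map_nsmul, hx, sub_self]
  have h2 : φ (s y - y) = 0 := htors _ e he h1
  have h3 : s (φ y) = φ y := by
    rw [map_sub, sub_eq_zero] at h2
    rw [← hcomm, h2]
  rw [map_nsmul, map_nsmul]
  exact hfin _ h3

/-- a finite group of fixed points has an exponent -/
theorem exists_exponent_of_finite_fixed (τ : Pc →+ Pc) (hfin : {z : Pc | τ z = z}.Finite) :
    ∃ e : ℕ, 0 < e ∧ ∀ z : Pc, τ z = z → e • z = 0 := by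
  classical
  let H : AddSubgroup Pc :=
    { carrier := {z | τ z = z}
      zero_mem' := map_zero τ
      add_mem' := fun {a b} ha hb => by
        show τ (a + b) = a + b
        rw [map_add, ha, hb]
      neg_mem' := fun {a} ha => by
        show τ (-a) = -a
        rw [map_neg, ha] }
  have hH : Finite H := hfin.to_subtype
  refine ⟨Nat.card H, Nat.card_pos, fun z hz => ?_⟩
  have h : Nat.card H • (⟨z, hz⟩ : H) = 0 := card_nsmul_eq_zero'
  have h' : ((Nat.card H • (⟨z, hz⟩ : H) : H) : Pc) = ((0 : H) : Pc) := congrArg Subtype.val h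
  rwa [AddSubgroup.coe_nsmul, AddSubgroup.coe_zero] at h'

/-- **RIG-red.** Rigidity after reduction: `r` intertwines `s` with `τ`, the `τ`-fixed points
are finite. -/
theorem rig_red (s φ : J →+ J) (hcomm : ∀ x, φ (s x) = s (φ x))
    (htors : ∀ t : J, ∀ n : ℕ, 0 < n → n • t = 0 → φ t = 0)
    (hdiv : ∀ n : ℕ, 0 < n → ∀ y : J, ∃ w : J, n • w = y)
    (r : J →+ Pc) (τ : Pc →+ Pc) (hr : ∀ x, r (s x) = τ (r x))
    (hfin : {z : Pc | τ z = z}.Finite)
    (x : J) (hx : s x = x) : r (φ x) = 0 := by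
  obtain ⟨e, he, hexp⟩ := exists_exponent_of_finite_fixed τ hfin
  refine rig_abs s φ hcomm htors hdiv r e he (fun w hw => hexp _ ?_) x hx
  rw [← hr, hw]

/-- **RIG-eigen.** If moreover `r` is onto up to fixed points (every `ȳ` is `r x` with `x`
fixed by some power of `σ`), `φ̄` is the reduced endomorphism (`r ∘ φ = φ̄ ∘ r`), then `φ̄ = 0`
on the image of the `s`-fixed points. -/
theorem rig_red_bar (s φ : J →+ J) (hcomm : ∀ x, φ (s x) = s (φ x))
    (htors : ∀ t : J, ∀ n : ℕ, 0 < n → n • t = 0 → φ t = 0)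
    (hdiv : ∀ n : ℕ, 0 < n → ∀ y : J, ∃ w : J, n • w = y)
    (r : J →+ Pc) (τ : Pc →+ Pc) (hr : ∀ x, r (s x) = τ (r x))
    (hfin : {z : Pc | τ z = z}.Finite)
    (φbar : Pc →+ Pc) (hφ : ∀ x, r (φ x) = φbar (r x))
    (x : J) (hx : s x = x) : φbar (r x) = 0 := by
  rw [← hφ]
  exact rig_red s φ hcomm htors hdiv r τ hr hfin x hx

end Fermat.Agent.R38
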